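/-
S29 row, layer M, sub-layer M4b, PIECE `K4-INJ` (helper569).

`isKum_zero_right` : only the trivial character has Kummer class `0`
(EXACT statement of `origin/helper822:Fermat/Agent/S29/M4b/Skeleton.lean`, general modulus).

Proof.  `x = 0` gives `g` with `div f = p div g`; `f / g ^ p` has no zeros and poles, hence is a
constant (landed CONST_F, `S18.H65.constOfOrdZero_bar`), which is a `p`-th power in `ℚ̄`.  So
`f * t ^ p = w ^ p` with `w ∈ FF N`.  Write `ι w = r / s` with `r, s` polynomials in the `j(q^d)`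
(landed S24 `laurentBaseChange_full_le`), realised by good functions `a, b` (landed
`H882.AK_le_goodQ`).  Then `(U b) ^ p` and `a ^ p` have the same `q`-expansion, hence are equal, so
`U b = ζ a` (landed `H751.eq_of_pow_eq_UHP`), and `U b` is `Γ₀(N)`-invariant; as it is of character
`c` and not identically zero, `ζ_p ^ c(γ) = 1` for all `γ`.
-/
import Fermat.Agent.S29.M4b.Defs
import Fermat.Agent.S29.H751.PthRootUHP
import Fermat.Agent.S18.H65.ConstF

set_option autoImplicit false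

noncomputable section

open ModularCurve AlgebraicCurve CongruenceSubgroup UpperHalfPlane
open scoped MatrixGroups Manifold

namespace Fermat.Agent.S29.H569

open Fermat.Agent.S24 Fermat.Agent.S29 Fermat.Agent.S29.M4b
open Fermat.Agent.S24.H648 Fermat.Agent.S24.H708 Fermat.Agent.S24.Deg457

/-- `ζ_p ^ k = 1` with `k < p` forces `k = 0`. -/
theorem K4Inj_zetaP_pow_eq_one {p : ℕ} [NeZero p] {k : ℕ} (hk : k < p)
    (h : zetaP p ^ k = 1) : k = 0 := by
  have hprim : IsPrimitiveRoot (zetaP p) p := Complex.isPrimitiveRoot_exp p (NeZero.ne p)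
  have hdvd : p ∣ k := (hprim.pow_eq_one_iff_dvd k).mp h
  exact Nat.eq_zero_of_dvd_of_lt hdvd hk

/-- A function of the modular function field whose `p`-Kummer class vanishes is a `p`-th power. -/
theorem K4Inj_exists_pow_eq (N : ℕ) [NeZero N] (p : ℕ) [NeZero p] {f : FF N}
    (h : H455.IsKummerClass (p : ℤ) f (0 : JZero N)) : ∃ v : FF N, v ≠ 0 ∧ f = v ^ p := by
  have hp0 : (p : ℤ) ≠ 0 := by exact_mod_cast NeZero.ne p
  have hf : f ≠ 0 := h.ne_zero
  obtain ⟨g, hg, hfg⟩ := (H455.IsKummerClass.eq_zero_iff hp0 h).mp rfl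
  have hgp : g ^ p ≠ 0 := pow_ne_zero p hg
  have hu0 : f * (g ^ p)⁻¹ ≠ 0 := mul_ne_zero hf (inv_ne_zero hgp)
  have hord : ∀ v : Place (AlgebraicClosure ℚ) (modularFunctionFieldBar N),
      v.ord (f * (g ^ p)⁻¹) = 0 := by
    intro v
    rw [Place.ord_mul v hf (inv_ne_zero hgp), Place.ord_inv, hfg v]
    have h1 : v.ord (g ^ p) = (p : ℤ) * v.ord g := by
      have := Place.ord_zpow v g (p : ℤ)
      rwa [zpow_natCast] at this
    rw [h1]
    ring
  obtain ⟨c, hc⟩ := Fermat.Agent.S18.H65.constOfOrdZero_bar N (f * (g ^ p)⁻¹) hu0 hord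
  obtain ⟨b, hb⟩ := IsAlgClosed.exists_pow_nat_eq c (Nat.pos_of_ne_zero (NeZero.ne p))
  have hfe : f = algebraMap (AlgebraicClosure ℚ) (FF N) c * g ^ p := by
    rw [← hc, mul_assoc, inv_mul_cancel₀ hgp, mul_one]
  refine ⟨algebraMap (AlgebraicClosure ℚ) (FF N) b * g, ?_, ?_⟩
  · intro h0
    apply hf
    rw [hfe, ← hb, map_pow, ← mul_pow, h0, zero_pow (NeZero.ne p)]
  · rw [hfe, ← hb, map_pow, ← mul_pow]

/-- PIECE `K4-INJ`: only the trivial character has Kummer class `0`. -/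
theorem isKum_zero_right (N : ℕ) [NeZero N] (p : ℕ) [NeZero p] {c : G0 N → ZMod p}
    (h : IsKum N p c (0 : JZero N)) : c = 0 := by
  obtain ⟨f, t, U, ht, hx, hU, hG, hq⟩ := h
  have hp : p ≠ 0 := NeZero.ne p
  obtain ⟨v, hv, hfv⟩ := K4Inj_exists_pow_eq N p hx
  -- `f * t ^ p = w ^ p`
  set w : FF N := v * t with hw
  have hw0 : w ≠ 0 := mul_ne_zero hv ht
  have hfw : f * t ^ p = w ^ p := by rw [hfv, hw, mul_pow]
  -- the `q`-expansion of `w` over `ℂ`
  set W : LaurentSeries ℂ := coeffMap iotaC ((w : FF N) : LaurentSeries Kbar) with hWdef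
  have hWmem : W ∈ laurentBaseChange ℂ (modularFunctionFieldFull N) :=
    H882.coeffMap_mem_laurentBaseChange_of_mem iotaC _ w.2
  have hqW : qexpFun 1 (fun τ => U τ ^ p) = W ^ p := by
    rw [hq, hfw, hWdef, ← map_pow]
    rfl
  have hUp : HasQExp 1 (fun τ => U τ ^ p) (W ^ p) := by
    have := H882.hasQExp_of_mem_goodRing hG
    rwa [hqW] at this
  -- `U ^ p ≠ 0`
  obtain ⟨τ₁, hτ₁⟩ := hU.ne_zero
  have hUp0 : (fun τ => U τ ^ p) ≠ 0 := by
    intro h0
    have := congrFun h0 τ₁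
    simp only [Pi.zero_apply] at this
    exact hτ₁ (pow_eq_zero_iff hp |>.mp this)
  have hWp0 : W ^ p ≠ 0 := fun h0 => hUp0 (hUp.eq_zero_iff.mp h0)
  have hW0 : W ≠ 0 := fun h0 => hWp0 (by rw [h0, zero_pow hp])
  -- `W = r / s` with `r, s` polynomials in the `j (q ^ d)`
  have hW' := laurentBaseChange_full_le (K := ℂ) N hWmem
  rw [IntermediateField.mem_adjoin_iff_div] at hW'
  obtain ⟨r, hr, s, hs, hWrs⟩ := hW'
  have hs0 : s ≠ 0 := by
    intro h0
    rw [h0, div_zero] at hWrs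
    exact hW0 hWrs
  have hr0 : r ≠ 0 := by
    intro h0
    rw [h0, zero_div] at hWrs
    exact hW0 hWrs
  obtain ⟨a, ha, har⟩ := H882.AK_le_goodQ N (show r ∈ AK ℂ N from hr)
  obtain ⟨b, hb, hbs⟩ := H882.AK_le_goodQ N (show s ∈ AK ℂ N from hs)
  -- `(U b) ^ p = a ^ p`
  have hWs : W * s = r := by rw [hWrs, div_mul_cancel₀ _ hs0]
  have h1 : HasQExp 1 ((fun τ => U τ ^ p) * b ^ p) (r ^ p) := by
    have := hUp.mul (hbs.pow p)
    rwa [← mul_pow, hWs] at this
  have h2 : HasQExp 1 (a ^ p) (r ^ p) := har.pow p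
  have heq : (fun τ => U τ ^ p) * b ^ p = a ^ p := h1.eq_of_eq h2
  have heq' : ∀ τ : ℍ, (U τ * b τ) ^ p = a τ ^ p := by
    intro τ
    have := congrFun heq τ
    simp only [Pi.mul_apply, Pi.pow_apply] at this
    rw [mul_pow]
    exact this
  -- a point where `a ≠ 0`
  have ha0 : a ≠ 0 := fun h0 => hr0 (har.eq_zero_iff.mpr h0)
  obtain ⟨τ₀, hτ₀⟩ : ∃ τ₀ : ℍ, a τ₀ ≠ 0 := by
    by_contra hcon
    simp only [not_exists, not_not] at hcon
    exact ha0 (funext hcon)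
  have hA0 : U τ₀ * b τ₀ ≠ 0 := by
    intro h0
    have := heq' τ₀
    rw [h0, zero_pow hp] at this
    exact hτ₀ (pow_eq_zero_iff hp |>.mp this.symm)
  -- `U b = ζ a`
  set ζ : ℂ := U τ₀ * b τ₀ / a τ₀ with hζ
  have hζp : ζ ^ p = 1 := by
    rw [hζ, div_pow, heq' τ₀, div_self (pow_ne_zero p hτ₀)]
  have hAB : (fun τ => U τ * b τ) = fun τ => ζ * a τ := by
    refine H751.eq_of_pow_eq_UHP (hU.mdiff.mul hb.1) (mdifferentiable_const.mul ha.1) hp
      (fun τ => ?_) (τ₀ := τ₀) ?_ hA0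
    · rw [heq' τ, mul_pow, hζp, one_mul]
    · show U τ₀ * b τ₀ = ζ * a τ₀
      rw [hζ, div_mul_cancel₀ _ hτ₀]
  -- conclusion
  funext γ
  have hγ : (γ : SL(2, ℤ)) ∈ Gamma0 N := γ.2
  have e1 : U ((γ : SL(2, ℤ)) • τ₀) * b ((γ : SL(2, ℤ)) • τ₀) = ζ * a ((γ : SL(2, ℤ)) • τ₀) :=
    congrFun hAB _
  have e2 : U τ₀ * b τ₀ = ζ * a τ₀ := congrFun hAB τ₀
  rw [hb.2.1 _ hγ τ₀, ha.2.1 _ hγ τ₀, ← e2, hU.hasChar γ τ₀, mul_assoc] at e1
  have e3 : zetaP p ^ (c γ).val = 1 := by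
    have := mul_right_cancel₀ hA0 (e1.trans (one_mul _).symm)
    exact this
  have hval : (c γ).val = 0 := K4Inj_zetaP_pow_eq_one (ZMod.val_lt (c γ)) e3
  show c γ = 0
  exact (ZMod.val_eq_zero (c γ)).mp hval

end Fermat.Agent.S29.H569
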