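/-
S29 row, layer M, sub-layer M4b, PIECE `K4-UNIQ` (helper569).

`isKum_unique` : the Kummer class of a character is unique
(EXACT statement of `origin/helper822:Fermat/Agent/S29/M4b/Skeleton.lean`, general modulus).

Proof.  Let `(f, t, U)`, `(f', t', U')` be data for `x`, `x'`.  `V := U * U' ^ (p-1)` is
holomorphic, `Γ₀(N)`-invariant (`ζ_p ^ p = 1`) and of exponential growth (`|V| = |V ^ p| ^ (1/p)`),
so `V` is good and its `q`-expansion `Y` lies in the function field over `ℂ` (landed MERO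
`H882.qexpFun_mem_FC`).  `Y ^ p = ι w`, `w := f t^p (f' t'^p)^(p-1)`, has algebraic coefficients;
for `σ ∈ Aut(ℂ/ℚ̄)` the series `σ Y` is again a root of `X ^ p - Y ^ p`, so the orbit of every
coefficient of `Y` is finite and `Y = ι y` (landed `H991.mem_range_of_finite_orbit`), and
`y ∈ FF N` (landed `H991.mem_laurentBaseChange_of_coeffMap_mem`).  Hence `f f'^(p-1)` is a `p`-th
power in `FF N`, `x + (p-1) x' = 0`, and `p x' = 0`.
-/
import Fermat.Agent.S29.M4b.Defs
import Fermat.Agent.S29.H991.FiniteOrbit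
import Fermat.Agent.S29.H991.CoeffDescent
import Fermat.Agent.S18.H65.ConstF

set_option autoImplicit false

noncomputable section

open ModularCurve AlgebraicCurve CongruenceSubgroup UpperHalfPlane
open scoped MatrixGroups Manifold Real

namespace Fermat.Agent.S29.H569

open Fermat.Agent.S24 Fermat.Agent.S29 Fermat.Agent.S29.M4b
open Fermat.Agent.S24.H648 Fermat.Agent.S24.H708 Fermat.Agent.S24.Deg457

/-! ### Descent of `p`-th roots of Laurent series -/

section Descent

variable {K Ω : Type*} [Field K] [Field Ω] [CharZero K] [IsAlgClosed K] [IsAlgClosed Ω]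

/-- A Laurent series over `Ω` whose `p`-th power has coefficients in the algebraically closed
subfield `K` has itself coefficients in `K`. -/
theorem K4Uniq_exists_coeffMap_eq (ι : K →+* Ω) {p : ℕ} (hp : p ≠ 0)
    (Y : LaurentSeries Ω) (w : LaurentSeries K) (h : Y ^ p = coeffMap ι w) :
    ∃ y : LaurentSeries K, coeffMap ι y = Y := by
  classical
  letI : Algebra K Ω := ι.toAlgebra
  have hroots : (Set.range fun σ : Ω ≃ₐ[K] Ω => coeffMap (σ : Ω →+* Ω) Y).Finite := by
    have hP : (Polynomial.X ^ p - Polynomial.C (Y ^ p) : Polynomial (LaurentSeries Ω)) ≠ 0 :=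
      Polynomial.X_pow_sub_C_ne_zero (Nat.pos_of_ne_zero hp) _
    refine ((Polynomial.X ^ p - Polynomial.C (Y ^ p) :
      Polynomial (LaurentSeries Ω)).roots.toFinset.finite_toSet).subset ?_
    rintro _ ⟨σ, rfl⟩
    simp only [Finset.mem_coe, Multiset.mem_toFinset, Polynomial.mem_roots hP,
      Polynomial.IsRoot, Polynomial.eval_sub, Polynomial.eval_pow, Polynomial.eval_X,
      Polynomial.eval_C]
    rw [sub_eq_zero, ← map_pow, h, coeffMap_coeffMap]
    refine coeffMap_congr (RingHom.ext fun c => ?_) w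
    exact σ.commutes c
  have hcoeff : ∀ n : ℤ, Y.coeff n ∈ Set.range ι := by
    intro n
    have hfin : (Set.range fun σ : Ω ≃ₐ[K] Ω => σ (Y.coeff n)).Finite := by
      refine (hroots.image (fun Z : LaurentSeries Ω => Z.coeff n)).subset ?_
      rintro _ ⟨σ, rfl⟩
      exact ⟨_, ⟨σ, rfl⟩, rfl⟩
    exact H991.mem_range_of_finite_orbit (K := K) (Y.coeff n) hfin
  choose c hc using hcoeff
  have hsupp : Function.support c ⊆ Y.support := by
    intro n hn
    rw [Function.mem_support] at hn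
    rw [HahnSeries.mem_support, ← hc n]
    exact (map_ne_zero ι).mpr hn
  refine ⟨⟨c, Y.isPWO_support.mono hsupp⟩, ?_⟩
  ext n
  rw [coeffMap_coeff]
  exact hc n

end Descent

/-! ### Growth of a `p`-th root -/

theorem K4Uniq_expGrowth_of_pow {f : ℍ → ℂ} {p : ℕ} (hp : p ≠ 0)
    (h : ExpGrowth (fun τ => f τ ^ p)) : ExpGrowth f := by
  obtain ⟨C, m, hC⟩ := h
  refine ⟨max C 1, m, fun τ hτ => ?_⟩
  have h1 := hC τ hτ
  rw [norm_pow] at h1
  have hexp : 1 ≤ Real.exp (2 * π * m * τ.im) := by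
    apply Real.one_le_exp
    have := τ.im_pos
    positivity
  have hB1 : 1 ≤ max C 1 * Real.exp (2 * π * m * τ.im) := by
    calc (1 : ℝ) = 1 * 1 := by ring
      _ ≤ max C 1 * Real.exp (2 * π * m * τ.im) :=
        mul_le_mul (le_max_right _ _) hexp zero_le_one (by positivity)
  have h2 : ‖f τ‖ ^ p ≤ (max C 1 * Real.exp (2 * π * m * τ.im)) ^ p := by
    calc ‖f τ‖ ^ p ≤ C * Real.exp (2 * π * m * τ.im) := h1
      _ ≤ max C 1 * Real.exp (2 * π * m * τ.im) :=
        mul_le_mul_of_nonneg_right (le_max_left _ _) (Real.exp_pos _).le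
      _ ≤ (max C 1 * Real.exp (2 * π * m * τ.im)) ^ p := le_self_pow₀ hB1 hp
  exact le_of_pow_le_pow_left₀ hp (by positivity) h2

theorem K4Uniq_zetaP_pow_self (p : ℕ) [NeZero p] : zetaP p ^ p = 1 :=
  (Complex.isPrimitiveRoot_exp p (NeZero.ne p)).pow_eq_one

/-! ### The piece -/

/-- PIECE `K4-UNIQ`: the Kummer class of a character is unique. -/
theorem isKum_unique (N : ℕ) [NeZero N] (p : ℕ) [NeZero p] {c : G0 N → ZMod p} {x x' : JZero N}
    (h : IsKum N p c x) (h' : IsKum N p c x') : x = x' := by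
  obtain ⟨f, t, U, ht, hx, hU, hG, hq⟩ := h
  obtain ⟨f', t', U', ht', hx', hU', hG', hq'⟩ := h'
  have hp : p ≠ 0 := NeZero.ne p
  have hp0 : (p : ℤ) ≠ 0 := by exact_mod_cast hp
  haveI : HasPrincipalDivisors (AlgebraicClosure ℚ) (modularFunctionFieldBar N) :=
    Fermat.Agent.S18.H65.hasPrincipalDivisors_bar N
  -- the good function `V ^ p`
  set G1 : ℍ → ℂ := (fun τ => U τ ^ p) * (fun τ => U' τ ^ p) ^ (p - 1) with hG1def
  have hG1 : G1 ∈ goodRing N := (goodRing N).mul_mem hG ((goodRing N).pow_mem hG' _)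
  set V : ℍ → ℂ := fun τ => U τ * U' τ ^ (p - 1) with hVdef
  have hVp : (fun τ => V τ ^ p) = G1 := by
    funext τ
    simp only [hVdef, hG1def, Pi.mul_apply, Pi.pow_apply]
    rw [mul_pow, ← pow_mul, ← pow_mul, mul_comm (p - 1) p]
  have hVgood : V ∈ goodRing N := by
    refine ⟨hU.mdiff.mul (hU'.mdiff.pow (p - 1)), fun γ hγ τ => ?_, fun g => ?_⟩
    · have e1 := hU.hasChar ⟨γ, hγ⟩ τ
      have e2 := hU'.hasChar ⟨γ, hγ⟩ τ
      simp only at e1 e2
      show U (γ • τ) * U' (γ • τ) ^ (p - 1) = U τ * U' τ ^ (p - 1)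
      rw [e1, e2, mul_pow, ← pow_mul]
      have e3 : zetaP p ^ (c ⟨γ, hγ⟩).val * zetaP p ^ ((c ⟨γ, hγ⟩).val * (p - 1)) = 1 := by
        rw [← pow_add]
        have : (c ⟨γ, hγ⟩).val + (c ⟨γ, hγ⟩).val * (p - 1) = p * (c ⟨γ, hγ⟩).val := by
          calc (c ⟨γ, hγ⟩).val + (c ⟨γ, hγ⟩).val * (p - 1)
              = (c ⟨γ, hγ⟩).val * (p - 1 + 1) := by ring
            _ = (c ⟨γ, hγ⟩).val * p := by rw [Nat.sub_add_cancel (Nat.pos_of_ne_zero hp)]
            _ = p * (c ⟨γ, hγ⟩).val := mul_comm _ _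
        rw [this, pow_mul, K4Uniq_zetaP_pow_self, one_pow]
      calc zetaP p ^ (c ⟨γ, hγ⟩).val * U τ
            * (zetaP p ^ ((c ⟨γ, hγ⟩).val * (p - 1)) * U' τ ^ (p - 1))
          = (zetaP p ^ (c ⟨γ, hγ⟩).val * zetaP p ^ ((c ⟨γ, hγ⟩).val * (p - 1)))
            * (U τ * U' τ ^ (p - 1)) := by ring
        _ = U τ * U' τ ^ (p - 1) := by rw [e3, one_mul]
    · apply K4Uniq_expGrowth_of_pow hp
      have := hG1.2.2 g
      rw [← hVp] at this
      exact this
  -- `q`-expansions
  set Y : LaurentSeries ℂ := qexpFun 1 V with hYdef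
  have hV : HasQExp 1 V Y := H882.hasQExp_of_mem_goodRing hVgood
  have hYmem : Y ∈ laurentBaseChange ℂ (modularFunctionFieldFull N) :=
    H882.qexpFun_mem_FC hVgood
  set wF : FF N := (f * t ^ p) * (f' * t' ^ p) ^ (p - 1) with hwF
  have hUq : HasQExp 1 (fun τ => U τ ^ p)
      (coeffMap iotaC (((f * t ^ p : FF N)) : LaurentSeries Kbar)) := by
    have := H882.hasQExp_of_mem_goodRing hG
    rwa [hq] at this
  have hUq' : HasQExp 1 (fun τ => U' τ ^ p)
      (coeffMap iotaC (((f' * t' ^ p : FF N)) : LaurentSeries Kbar)) := by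
    have := H882.hasQExp_of_mem_goodRing hG'
    rwa [hq'] at this
  have hG1q : HasQExp 1 G1 (coeffMap iotaC ((wF : FF N) : LaurentSeries Kbar)) := by
    have := hUq.mul (hUq'.pow (p - 1))
    rw [← map_pow, ← map_mul] at this
    exact this
  have hYp : Y ^ p = coeffMap iotaC ((wF : FF N) : LaurentSeries Kbar) := by
    have h1 : HasQExp 1 (V ^ p) (Y ^ p) := hV.pow p
    have h2 : V ^ p = G1 := hVp
    rw [h2] at h1
    exact h1.unique hG1q
  -- descent of `Y`
  obtain ⟨y, hy⟩ := K4Uniq_exists_coeffMap_eq iotaC hp Y _ hYp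
  have hyF : y ∈ laurentBaseChange Kbar (modularFunctionFieldFull N) :=
    H991.mem_laurentBaseChange_of_coeffMap_mem iotaC y (by rw [hy]; exact hYmem)
  set yF : FF N := ⟨y, hyF⟩ with hyFdef
  have hyw : yF ^ p = wF := by
    apply Subtype.ext
    apply H991.desc_coeffMap_injective iotaC
    rw [← hYp, ← hy]
    show coeffMap iotaC (y ^ p) = coeffMap iotaC y ^ p
    rw [map_pow]
  -- algebra of Kummer classes
  have hf : f ≠ 0 := hx.ne_zero
  have hf' : f' ≠ 0 := hx'.ne_zero
  have hd : t * t' ^ (p - 1) ≠ 0 := mul_ne_zero ht (pow_ne_zero _ ht')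
  set z : FF N := yF / (t * t' ^ (p - 1)) with hz
  have hzp : f * f' ^ (p - 1) = z ^ p := by
    rw [hz, div_pow, hyw, hwF, eq_div_iff (pow_ne_zero p hd)]
    rw [mul_pow, mul_pow, ← pow_mul, ← pow_mul, mul_comm (p - 1) p]
    ring
  have hz0 : z ≠ 0 := by
    intro h0
    rw [h0, zero_pow hp] at hzp
    exact (mul_ne_zero hf (pow_ne_zero _ hf')) hzp
  have hk : ∀ k : ℕ, H455.IsKummerClass (p : ℤ) (f' ^ k) (k • x') := by
    intro k
    induction k with
    | zero => simpa using (H455.IsKummerClass.zero (n := (p : ℤ))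
        (K := AlgebraicClosure ℚ) (F := modularFunctionFieldBar N))
    | succ k ih =>
      rw [pow_succ, succ_nsmul]
      exact ih.add hx'
  have hA : H455.IsKummerClass (p : ℤ) (f * f' ^ (p - 1)) (x + (p - 1) • x') :=
    hx.add (hk (p - 1))
  have hB : H455.IsKummerClass (p : ℤ) (f * f' ^ (p - 1)) (0 : JZero N) := by
    have := (H455.IsKummerClass.zero (n := (p : ℤ))
        (K := AlgebraicClosure ℚ) (F := modularFunctionFieldBar N)).mul_zpow hz0
    rw [one_mul, zpow_natCast, ← hzp] at this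
    exact this
  have e1 : x + (p - 1) • x' = 0 := H455.IsKummerClass.unique hp0 hA hB
  have e2 : p • x' = 0 := by
    have := hx'.zsmul_eq_zero
    rwa [natCast_zsmul] at this
  have e3 : p • x' = (p - 1) • x' + x' := by
    have hp1 : p = (p - 1) + 1 := (Nat.sub_add_cancel (Nat.pos_of_ne_zero hp)).symm
    nth_rewrite 1 [hp1]
    rw [succ_nsmul]
  have e4 : x - x' = 0 := by
    have : x - x' = (x + (p - 1) • x') - ((p - 1) • x' + x') := by abel
    rw [this, e1, ← e3, e2, sub_zero]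
  exact sub_eq_zero.mp e4

end Fermat.Agent.S29.H569
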